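import Mathlib
import Fermat.Agent.S24.FF.Ord
import Fermat.Agent.S17.HB.Loc2

/-!
# Program MW (statement S17), strand HB, block DEG: vocabulary

`F / K` is the function field of the curve, `M / K` the function field of the division curve,
`ρ : Option (Fin g) → (F →ₐ[K] M)` the `g + 1` embeddings (`ρ none` the generic point, `ρ (some k)`
the moving points).  For a place `c` of `M`:

* `cen htrF htrM ρ x c` : the centre on `F` of the point `x` at `c` (LOC2's `centre`);
* `mult n x` : the multiplicity of the point `x` (`1` for the generic point, `n` for a moving one);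
* `unif T` : a chosen uniformiser at the place `T` of `F`;
* `coinc htrF htrM ρ x x' c` : the coincidence order at `c` of the points `x`, `x'`: the order at
  `c` of `ρ x t - ρ x' t`, `t` the chosen uniformiser at the common centre (`0` when the centres
  differ).  It is symmetric (`coinc_symm`).

The local counts of block DEG (files `Deg/Jet`, `Deg/Value`, `Deg/G1`) and the exit (`Deg/Exit`)
are typed in this vocabulary.
-/

set_option autoImplicit false

open AlgebraicCurve

namespace Fermat.Agent.S17.HB.Deg

variable {K F M : Type*} [Field K] [Field F] [Field M] [Algebra K F] [Algebra K M]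

/-- The multiplicity of a point: `1` for the generic point, `n` for a moving point. -/
def mult (n : ℕ) {g : ℕ} : Option (Fin g) → ℕ
  | none => 1
  | some _ => n

@[simp] theorem mult_none (n : ℕ) {g : ℕ} : mult n (none : Option (Fin g)) = 1 := rfl

@[simp] theorem mult_some (n : ℕ) {g : ℕ} (k : Fin g) : mult n (some k) = n := rfl

theorem exists_ord_eq_one (T : Place K F) : ∃ t : F, T.ord t = 1 := by
  obtain ⟨π, hπ⟩ := IsDiscreteValuationRing.exists_irreducible T.toValuationSubring
  exact ⟨(π : F), T.ord_coe_irreducible hπ⟩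

/-- A chosen uniformiser at the place `T`. -/
noncomputable def unif (T : Place K F) : F := (exists_ord_eq_one T).choose

theorem ord_unif (T : Place K F) : T.ord (unif T) = 1 := (exists_ord_eq_one T).choose_spec

/-- The centre on `F` of the point `x` at the place `c` of `M`. -/
noncomputable def cen (htrF : Algebra.trdeg K F = 1) (htrM : Algebra.trdeg K M = 1) {g : ℕ}
    (ρ : Option (Fin g) → (F →ₐ[K] M)) (x : Option (Fin g)) (c : Place K M) : Place K F :=
  Loc2.centre (ρ x) (Loc2.algHom_isIntegral htrF htrM (ρ x)) c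

theorem cen_toValuationSubring (htrF : Algebra.trdeg K F = 1) (htrM : Algebra.trdeg K M = 1)
    {g : ℕ} (ρ : Option (Fin g) → (F →ₐ[K] M)) (x : Option (Fin g)) (c : Place K M) :
    (cen htrF htrM ρ x c).toValuationSubring =
      c.toValuationSubring.comap ((ρ x : F →ₐ[K] M) : F →+* M) := rfl

theorem ord_map (htrF : Algebra.trdeg K F = 1) (htrM : Algebra.trdeg K M = 1) {g : ℕ}
    (ρ : Option (Fin g) → (F →ₐ[K] M)) (x : Option (Fin g)) (c : Place K M) (f : F) :
    c.ord (ρ x f) = Loc2.ram (ρ x) c * (cen htrF htrM ρ x c).ord f :=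
  Loc2.ord_map (ρ x) (Loc2.algHom_isIntegral htrF htrM (ρ x)) c f

open Classical in
/-- The coincidence order at `c` of the points `x` and `x'`. -/
noncomputable def coinc (htrF : Algebra.trdeg K F = 1) (htrM : Algebra.trdeg K M = 1) {g : ℕ}
    (ρ : Option (Fin g) → (F →ₐ[K] M)) (x x' : Option (Fin g)) (c : Place K M) : ℤ :=
  if cen htrF htrM ρ x c = cen htrF htrM ρ x' c then
    c.ord (ρ x (unif (cen htrF htrM ρ x c)) - ρ x' (unif (cen htrF htrM ρ x c)))
  else 0

theorem coinc_of_eq (htrF : Algebra.trdeg K F = 1) (htrM : Algebra.trdeg K M = 1) {g : ℕ}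
    (ρ : Option (Fin g) → (F →ₐ[K] M)) {x x' : Option (Fin g)} {c : Place K M}
    (h : cen htrF htrM ρ x c = cen htrF htrM ρ x' c) :
    coinc htrF htrM ρ x x' c =
      c.ord (ρ x (unif (cen htrF htrM ρ x c)) - ρ x' (unif (cen htrF htrM ρ x c))) := by
  unfold coinc
  rw [if_pos h]

theorem coinc_of_ne (htrF : Algebra.trdeg K F = 1) (htrM : Algebra.trdeg K M = 1) {g : ℕ}
    (ρ : Option (Fin g) → (F →ₐ[K] M)) {x x' : Option (Fin g)} {c : Place K M}
    (h : cen htrF htrM ρ x c ≠ cen htrF htrM ρ x' c) :
    coinc htrF htrM ρ x x' c = 0 := by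
  unfold coinc
  rw [if_neg h]

theorem coinc_symm (htrF : Algebra.trdeg K F = 1) (htrM : Algebra.trdeg K M = 1) {g : ℕ}
    (ρ : Option (Fin g) → (F →ₐ[K] M)) (x x' : Option (Fin g)) (c : Place K M) :
    coinc htrF htrM ρ x x' c = coinc htrF htrM ρ x' x c := by
  by_cases h : cen htrF htrM ρ x c = cen htrF htrM ρ x' c
  · rw [coinc_of_eq htrF htrM ρ h, coinc_of_eq htrF htrM ρ h.symm, ← h,
      ← Fermat.Agent.S24.FF.ord_neg, neg_sub]
  · rw [coinc_of_ne htrF htrM ρ h, coinc_of_ne htrF htrM ρ (Ne.symm h)]

end Fermat.Agent.S17.HB.Deg
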