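import Mathlib
import Fermat.Prelude.Def_AlgebraicCurve_Correspondence
import Fermat.Agent.Lib.FFNorm.Along
import Fermat.Agent.S17.R.LSpace
import Fermat.Agent.S17.R.Places
import Fermat.Agent.S17.HB.Loc2
import Fermat.Agent.S17.HB.Deg.Defs

/-!
# Program MW (statement S17), strand HB, block DEG: the exit (DX)

`exit_kappa` : the three local counts at every place `c` of the division curve `M`

* (DJ) the order of the leading jets `Λ x` (the first derivative of the generic function at the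
  generic point, the `n`-th at a moving point),
* (DV) the order of the value `Φ` at a fixed general place `Q`,
* (DB) the order of the canonical determinant `G`,

give, through the single function `Θ = Λ₀ G ^ (2 n²) Φ ^ (n g - 1) / ∏ Λ_k ^ n` of degree zero
(the normalising exponents and the coincidence orders cancel place by place),

`n² (κ - 2 g + 4) ∑ deg ρ_k ≤ (κ + 2) deg ρ₀`, `κ = deg A`.

The statement is hypothesis shaped: the three counts are binders, so that this file does not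
depend on the local leaves.
-/

set_option autoImplicit false

open AlgebraicCurve

namespace Fermat.Agent.S17.HB.Deg

variable {K F M : Type*} [Field K] [Field F] [Algebra K F] [Field M] [Algebra K M]

namespace Exit

/-- The order of a finite product of non-zero functions. -/
theorem ord_prod {ι : Type*} (s : Finset ι) (f : ι → M) (hf : ∀ i ∈ s, f i ≠ 0)
    (c : Place K M) : c.ord (∏ i ∈ s, f i) = ∑ i ∈ s, c.ord (f i) := by
  classical
  induction s using Finset.induction_on with
  | empty => simp [Place.ord_one]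
  | insert a s ha ih =>
    rw [Finset.prod_insert ha, Finset.sum_insert ha,
      c.ord_mul (hf a (Finset.mem_insert_self a s))
        (Finset.prod_ne_zero_iff.mpr fun i hi => hf i (Finset.mem_insert_of_mem hi)),
      ih fun i hi => hf i (Finset.mem_insert_of_mem hi)]

/-- The order of a natural power. -/
theorem ord_npow (c : Place K M) (f : M) (k : ℕ) : c.ord (f ^ k) = (k : ℤ) * c.ord f := by
  rw [← zpow_natCast, Place.ord_zpow]

/-- The normalising exponent at a place of a family of functions with a member `1`. -/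
theorem exists_exponent {ι : Type*} [Fintype ι] (cM : ι → M) (j₀ : ι) (h0 : cM j₀ = 1)
    (c : Place K M) :
    ∃ (ϖ : M) (_ : c.ord ϖ = 1) (e : ℕ), (∀ j, ϖ ^ e * cM j ∈ c.toValuationSubring) ∧
      ∃ j, cM j ≠ 0 ∧ c.ord (ϖ ^ e * cM j) = 0 := by
  classical
  obtain ⟨ϖ, hϖ⟩ := exists_ord_eq_one c
  have hϖ0 : ϖ ≠ 0 := by
    rintro rfl
    rw [Place.ord_zero] at hϖ
    exact zero_ne_one hϖ
  have hS : (Finset.univ.filter fun j => cM j ≠ 0).Nonempty :=
    ⟨j₀, by rw [Finset.mem_filter, h0]; exact ⟨Finset.mem_univ _, one_ne_zero⟩⟩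
  obtain ⟨j₁, hj₁S, hj₁min⟩ := Finset.exists_min_image _ (fun j => c.ord (cM j)) hS
  have hj₁ : cM j₁ ≠ 0 := (Finset.mem_filter.mp hj₁S).2
  have hle : c.ord (cM j₁) ≤ 0 := by
    have h := hj₁min j₀ (by rw [Finset.mem_filter, h0]; exact ⟨Finset.mem_univ _, one_ne_zero⟩)
    rwa [h0, Place.ord_one] at h
  have hcast : (((-(c.ord (cM j₁))).toNat : ℕ) : ℤ) = -(c.ord (cM j₁)) :=
    Int.toNat_of_nonneg (by omega)
  have hord : ∀ j, cM j ≠ 0 → c.ord (ϖ ^ (-(c.ord (cM j₁))).toNat * cM j) =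
      -(c.ord (cM j₁)) + c.ord (cM j) := by
    intro j hj
    rw [c.ord_mul (pow_ne_zero _ hϖ0) hj, ord_npow, hcast, hϖ, mul_one]
  refine ⟨ϖ, hϖ, (-(c.ord (cM j₁))).toNat, ?_, j₁, hj₁, ?_⟩
  · intro j
    by_cases hj : cM j = 0
    · rw [hj, mul_zero]
      exact zero_mem _
    · refine (Fermat.Agent.S24.FF.ord_nonneg_iff c (mul_ne_zero (pow_ne_zero _ hϖ0) hj)).mp ?_
      rw [hord j hj]
      have h := hj₁min j (by rw [Finset.mem_filter]; exact ⟨Finset.mem_univ _, hj⟩)
      have h' : c.ord (cM j₁) ≤ c.ord (cM j) := h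
      omega
  · rw [hord j₁ hj₁]
    omega

/-- A symmetric double sum with zero diagonal is twice its lower triangle. -/
theorem sum_sum_symm {g : ℕ} (f : Fin g → Fin g → ℤ) (hs : ∀ k k', f k k' = f k' k)
    (h0 : ∀ k, f k k = 0) :
    ∑ k, ∑ k', f k k' =
      2 * ∑ k, ∑ k' ∈ Finset.univ.filter (fun k' : Fin g => k' < k), f k k' := by
  have hpt : ∀ k k', f k k' = (if k' < k then f k k' else 0) + (if k < k' then f k' k else 0) := by
    intro k k'
    rcases lt_trichotomy k' k with h | h | h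
    · rw [if_pos h, if_neg (not_lt.mpr h.le), add_zero]
    · subst h
      rw [if_neg (lt_irrefl _), h0, add_zero]
    · rw [if_neg (not_lt.mpr h.le), if_pos h, zero_add, hs]
  have h1 : ∑ k, ∑ k', f k k' = ∑ k, ∑ k', (if k' < k then f k k' else 0) +
      ∑ k, ∑ k', (if k < k' then f k' k else 0) := by
    rw [← Finset.sum_add_distrib]
    refine Finset.sum_congr rfl fun k _ => ?_
    rw [← Finset.sum_add_distrib]
    exact Finset.sum_congr rfl fun k' _ => hpt k k'
  have h2 : ∑ k, ∑ k', (if k < k' then f k' k else 0) =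
      ∑ k, ∑ k', (if k' < k then f k k' else 0) := Finset.sum_comm
  have h3 : ∀ k, ∑ k' ∈ Finset.univ.filter (fun k' : Fin g => k' < k), f k k' =
      ∑ k', (if k' < k then f k k' else 0) := fun k => Finset.sum_filter _ _
  rw [h1, h2, Finset.sum_congr rfl fun k _ => h3 k]
  ring

/-- The value of a pull-back divisor at a place of `M`, in the vocabulary of the block. -/
theorem pullback_apply (htrF : Algebra.trdeg K F = 1) (htrM : Algebra.trdeg K M = 1)
    [HasPrincipalDivisors K M] {g : ℕ} (ρ : Option (Fin g) → (F →ₐ[K] M)) (x : Option (Fin g))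
    (D : Divisor K F) (c : Place K M) :
    Divisor.pullbackAlong (ρ x) (Loc2.algHom_isIntegral htrF htrM (ρ x)) D c =
      (Loc2.ram (ρ x) c : ℤ) * D (cen htrF htrM ρ x c) :=
  Divisor.pullbackAlong_apply (ρ x) _ D c

theorem coinc_self (htrF : Algebra.trdeg K F = 1) (htrM : Algebra.trdeg K M = 1) {g : ℕ}
    (ρ : Option (Fin g) → (F →ₐ[K] M)) (x : Option (Fin g)) (c : Place K M) :
    coinc htrF htrM ρ x x c = 0 := by
  rw [coinc_of_eq htrF htrM ρ rfl, sub_self, Place.ord_zero]

/-- The degree of a pull-back divisor. -/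
theorem degree_pullback [IsAlgClosed K] [CharZero K] [Algebra.EssFiniteType K M]
    (htrF : Algebra.trdeg K F = 1) (htrM : Algebra.trdeg K M = 1)
    [HasPrincipalDivisors K M] (φ : F →ₐ[K] M) (D : Divisor K F) :
    Divisor.degree (Divisor.pullbackAlong φ (Loc2.algHom_isIntegral htrF htrM φ) D) =
      (finrankAlong K φ : ℤ) * Divisor.degree D :=
  Divisor.degree_pullbackAlong φ _
    (Fermat.Agent.Lib.FFNorm.fundamentalIdentityAlong φ _ htrF htrM) D

end Exit

variable [IsAlgClosed K] [CharZero K] [Algebra.EssFiniteType K F] [Algebra.EssFiniteType K M]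

open Classical in
/-- **DX.**  The three local counts at every place of `M` give
`n² (κ - 2 g + 4) d₂ ≤ (κ + 2) M₀`, `κ = deg A`. -/
theorem exit_kappa (htrF : Algebra.trdeg K F = 1) (htrM : Algebra.trdeg K M = 1) {n g m : ℕ}
    (hn : 0 < n) (hg : 0 < g) (ρ : Option (Fin g) → (F →ₐ[K] M)) (cM : Fin (m + 1) → M)
    (hc0 : cM 0 = 1) (A B W : Divisor K F) (Q : Place K F)
    (hB : Divisor.degree B = (n : ℤ) * g + 1) (hW : Divisor.degree W = 2 * (g : ℤ) - 2)
    (Λ : Option (Fin g) → M) (Φ G : M) (hG : G ≠ 0)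
    (hJ : ∀ (c : Place K M) (ϖ : M) (_ : c.ord ϖ = 1) (e : ℕ)
      (_ : ∀ j, ϖ ^ e * cM j ∈ c.toValuationSubring)
      (_ : ∃ j, cM j ≠ 0 ∧ c.ord (ϖ ^ e * cM j) = 0) (x : Option (Fin g)),
      Λ x ≠ 0 ∧ c.ord (Λ x) = -(e : ℤ) - (Loc2.ram (ρ x) c : ℤ) *
          ((mult n x : ℤ) * A (cen htrF htrM ρ x c) + B (cen htrF htrM ρ x c)) +
        ∑ x' ∈ Finset.univ.erase x, (mult n x' : ℤ) * coinc htrF htrM ρ x x' c)
    (hV : ∀ (c : Place K M) (ϖ : M) (_ : c.ord ϖ = 1) (e : ℕ)
      (_ : ∀ j, ϖ ^ e * cM j ∈ c.toValuationSubring)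
      (_ : ∃ j, cM j ≠ 0 ∧ c.ord (ϖ ^ e * cM j) = 0),
      Φ ≠ 0 ∧ -(e : ℤ) + ∑ x : Option (Fin g),
        (if cen htrF htrM ρ x c = Q then (mult n x : ℤ) * (Loc2.ram (ρ x) c : ℤ) else 0) ≤
          c.ord Φ)
    (hG1 : ∀ c : Place K M,
      -∑ k : Fin g, (Loc2.ram (ρ (some k)) c : ℤ) * W (cen htrF htrM ρ (some k) c) +
        ∑ k : Fin g, ∑ k' ∈ Finset.univ.filter (fun k' : Fin g => k' < k),
          coinc htrF htrM ρ (some k) (some k') c ≤ c.ord G) :
    (n : ℤ) ^ 2 * (Divisor.degree A - 2 * g + 4) *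
        ∑ k : Fin g, (finrankAlong K (ρ (some k)) : ℤ) ≤
      (Divisor.degree A + 2) * (finrankAlong K (ρ none) : ℤ) := by
  have : HasPrincipalDivisors K M := Fermat.Agent.Lib.FFNorm.hasPrincipalDivisors htrM
  have : Infinite (Place K M) := Fermat.Agent.S17.R.infinite_place htrM
  obtain ⟨c₀⟩ : Nonempty (Place K M) := inferInstance
  -- non-vanishing
  obtain ⟨ϖ₀, hϖ₀, e₀, he₀, he0₀⟩ := Exit.exists_exponent cM 0 hc0 c₀
  have hΛ : ∀ x, Λ x ≠ 0 := fun x => (hJ c₀ ϖ₀ hϖ₀ e₀ he₀ he0₀ x).1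
  have hΦ : Φ ≠ 0 := (hV c₀ ϖ₀ hϖ₀ e₀ he₀ he0₀).1
  have hP0 : ∏ k : Fin g, Λ (some k) ≠ 0 := Finset.prod_ne_zero_iff.mpr fun k _ => hΛ (some k)
  have hng : 1 ≤ n * g := Nat.mul_pos hn hg
  have hngZ : ((n * g - 1 : ℕ) : ℤ) = (n : ℤ) * g - 1 := by
    rw [Nat.cast_sub hng]
    push_cast
    ring
  have hngZ0 : (0 : ℤ) ≤ (n : ℤ) * g - 1 := by
    rw [← hngZ]
    exact Int.natCast_nonneg _
  -- the lower bound divisor
  have hle : Divisor.pullbackAlong (ρ none) (Loc2.algHom_isIntegral htrF htrM (ρ none))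
        (-(A + B) + ((n : ℤ) * g - 1) • Finsupp.single Q (1 : ℤ)) +
      ∑ k : Fin g, Divisor.pullbackAlong (ρ (some k))
        (Loc2.algHom_isIntegral htrF htrM (ρ (some k)))
        (((n : ℤ) ^ 2) • A + (n : ℤ) • B + ((n : ℤ) * ((n : ℤ) * g - 1)) • Finsupp.single Q (1 : ℤ)
          - (2 * (n : ℤ) ^ 2) • W) ≤
      R.divOf K (Λ none * G ^ (2 * n ^ 2) * Φ ^ (n * g - 1) *
        ((∏ k : Fin g, Λ (some k)) ^ n)⁻¹) := by
    rw [Finsupp.le_def]
    intro c
    obtain ⟨ϖ, hϖ, e, he, he0⟩ := Exit.exists_exponent cM 0 hc0 c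
    have hJ0 := (hJ c ϖ hϖ e he he0 none).2
    have hJk := fun k : Fin g => (hJ c ϖ hϖ e he he0 (some k)).2
    have hVc := (hV c ϖ hϖ e he he0).2
    have hGc := hG1 c
    -- the order of `Θ`
    have hΘ : c.ord (Λ none * G ^ (2 * n ^ 2) * Φ ^ (n * g - 1) *
        ((∏ k : Fin g, Λ (some k)) ^ n)⁻¹) =
        c.ord (Λ none) + (2 * (n : ℤ) ^ 2) * c.ord G + ((n : ℤ) * g - 1) * c.ord Φ -
          (n : ℤ) * ∑ k : Fin g, c.ord (Λ (some k)) := by
      rw [c.ord_mul (mul_ne_zero (mul_ne_zero (hΛ none) (pow_ne_zero _ hG))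
          (pow_ne_zero _ hΦ)) (inv_ne_zero (pow_ne_zero _ hP0)),
        c.ord_mul (mul_ne_zero (hΛ none) (pow_ne_zero _ hG)) (pow_ne_zero _ hΦ),
        c.ord_mul (hΛ none) (pow_ne_zero _ hG), Place.ord_inv, Exit.ord_npow, Exit.ord_npow,
        Exit.ord_npow, Exit.ord_prod _ _ (fun k _ => hΛ (some k)), hngZ]
      push_cast
      ring
    -- the sums
    have hs0 : ∑ x' ∈ Finset.univ.erase (none : Option (Fin g)),
        (mult n x' : ℤ) * coinc htrF htrM ρ none x' c =
        (n : ℤ) * ∑ k : Fin g, coinc htrF htrM ρ none (some k) c := by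
      rw [Finset.sum_erase_eq_sub (Finset.mem_univ _), Fintype.sum_option,
        Exit.coinc_self, Finset.mul_sum]
      simp only [mult_some]
      ring
    have hsk : ∀ k : Fin g, ∑ x' ∈ Finset.univ.erase (some k : Option (Fin g)),
        (mult n x' : ℤ) * coinc htrF htrM ρ (some k) x' c =
        coinc htrF htrM ρ none (some k) c +
          (n : ℤ) * ∑ k' : Fin g, coinc htrF htrM ρ (some k) (some k') c := by
      intro k
      rw [Finset.sum_erase_eq_sub (Finset.mem_univ _), Fintype.sum_option,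
        Exit.coinc_self, Finset.mul_sum, coinc_symm htrF htrM ρ (some k) none]
      simp only [mult_some, mult_none]
      push_cast
      ring
    have hsymm : ∑ k : Fin g, ∑ k' : Fin g, coinc htrF htrM ρ (some k) (some k') c =
        2 * ∑ k : Fin g, ∑ k' ∈ Finset.univ.filter (fun k' : Fin g => k' < k),
          coinc htrF htrM ρ (some k) (some k') c :=
      Exit.sum_sum_symm (fun k k' => coinc htrF htrM ρ (some k) (some k') c)
        (fun k k' => coinc_symm htrF htrM ρ (some k) (some k') c)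
        (fun k => Exit.coinc_self htrF htrM ρ (some k) c)
    have hsΛ : ∑ k : Fin g, c.ord (Λ (some k)) =
        -((g : ℤ) * e) - (n : ℤ) * ∑ k : Fin g, (Loc2.ram (ρ (some k)) c : ℤ) *
            A (cen htrF htrM ρ (some k) c) -
          ∑ k : Fin g, (Loc2.ram (ρ (some k)) c : ℤ) * B (cen htrF htrM ρ (some k) c) +
          ∑ k : Fin g, coinc htrF htrM ρ none (some k) c +
          (n : ℤ) * ∑ k : Fin g, ∑ k' : Fin g, coinc htrF htrM ρ (some k) (some k') c := by
      have hk : ∀ k : Fin g, c.ord (Λ (some k)) =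
          -(e : ℤ) - (n : ℤ) * ((Loc2.ram (ρ (some k)) c : ℤ) *
            A (cen htrF htrM ρ (some k) c)) -
          (Loc2.ram (ρ (some k)) c : ℤ) * B (cen htrF htrM ρ (some k) c) +
          coinc htrF htrM ρ none (some k) c +
          (n : ℤ) * ∑ k' : Fin g, coinc htrF htrM ρ (some k) (some k') c := by
        intro k
        rw [hJk k, hsk k]
        simp only [mult_some]
        ring
      rw [Finset.sum_congr rfl fun k _ => hk k]
      simp only [Finset.sum_add_distrib, Finset.sum_sub_distrib, ← Finset.mul_sum,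
        Finset.sum_neg_distrib, Finset.sum_const, Finset.card_univ, Fintype.card_fin,
        nsmul_eq_mul]
    have hsV : ∑ x : Option (Fin g),
        (if cen htrF htrM ρ x c = Q then (mult n x : ℤ) * (Loc2.ram (ρ x) c : ℤ) else 0) =
        (Loc2.ram (ρ none) c : ℤ) * (if Q = cen htrF htrM ρ none c then (1 : ℤ) else 0) +
          (n : ℤ) * ∑ k : Fin g, (Loc2.ram (ρ (some k)) c : ℤ) *
            (if Q = cen htrF htrM ρ (some k) c then (1 : ℤ) else 0) := by
      rw [Fintype.sum_option, Finset.mul_sum]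
      congr 1
      · by_cases h : cen htrF htrM ρ none c = Q
        · rw [if_pos h, if_pos h.symm]
          simp only [mult_none]
          push_cast
          ring
        · rw [if_neg h, if_neg (Ne.symm h), mul_zero]
      · refine Finset.sum_congr rfl fun k _ => ?_
        by_cases h : cen htrF htrM ρ (some k) c = Q
        · rw [if_pos h, if_pos h.symm]
          simp only [mult_some]
          ring
        · rw [if_neg h, if_neg (Ne.symm h), mul_zero, mul_zero]
    -- the left side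
    have hL : (Divisor.pullbackAlong (ρ none) (Loc2.algHom_isIntegral htrF htrM (ρ none))
          (-(A + B) + ((n : ℤ) * g - 1) • Finsupp.single Q (1 : ℤ)) +
        ∑ k : Fin g, Divisor.pullbackAlong (ρ (some k))
          (Loc2.algHom_isIntegral htrF htrM (ρ (some k)))
          (((n : ℤ) ^ 2) • A + (n : ℤ) • B +
            ((n : ℤ) * ((n : ℤ) * g - 1)) • Finsupp.single Q (1 : ℤ) - (2 * (n : ℤ) ^ 2) • W)) c =
        (Loc2.ram (ρ none) c : ℤ) * (-(A (cen htrF htrM ρ none c) + B (cen htrF htrM ρ none c)) +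
          ((n : ℤ) * g - 1) * (if Q = cen htrF htrM ρ none c then (1 : ℤ) else 0)) +
        ((n : ℤ) ^ 2 * ∑ k : Fin g, (Loc2.ram (ρ (some k)) c : ℤ) *
            A (cen htrF htrM ρ (some k) c) +
          (n : ℤ) * ∑ k : Fin g, (Loc2.ram (ρ (some k)) c : ℤ) *
            B (cen htrF htrM ρ (some k) c) +
          ((n : ℤ) * ((n : ℤ) * g - 1)) * ∑ k : Fin g, (Loc2.ram (ρ (some k)) c : ℤ) *
            (if Q = cen htrF htrM ρ (some k) c then (1 : ℤ) else 0) -
          (2 * (n : ℤ) ^ 2) * ∑ k : Fin g, (Loc2.ram (ρ (some k)) c : ℤ) *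
            W (cen htrF htrM ρ (some k) c)) := by
      rw [Finsupp.add_apply, Finsupp.finsetSum_apply, Exit.pullback_apply htrF htrM ρ none]
      have hk : ∀ k : Fin g, Divisor.pullbackAlong (ρ (some k))
          (Loc2.algHom_isIntegral htrF htrM (ρ (some k)))
          (((n : ℤ) ^ 2) • A + (n : ℤ) • B +
            ((n : ℤ) * ((n : ℤ) * g - 1)) • Finsupp.single Q (1 : ℤ) - (2 * (n : ℤ) ^ 2) • W) c =
          (n : ℤ) ^ 2 * ((Loc2.ram (ρ (some k)) c : ℤ) * A (cen htrF htrM ρ (some k) c)) +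
          (n : ℤ) * ((Loc2.ram (ρ (some k)) c : ℤ) * B (cen htrF htrM ρ (some k) c)) +
          ((n : ℤ) * ((n : ℤ) * g - 1)) * ((Loc2.ram (ρ (some k)) c : ℤ) *
            (if Q = cen htrF htrM ρ (some k) c then (1 : ℤ) else 0)) -
          (2 * (n : ℤ) ^ 2) * ((Loc2.ram (ρ (some k)) c : ℤ) *
            W (cen htrF htrM ρ (some k) c)) := by
        intro k
        rw [Exit.pullback_apply htrF htrM ρ (some k)]
        simp only [Finsupp.add_apply, Finsupp.sub_apply, Finsupp.smul_apply, smul_eq_mul,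
          Finsupp.single_apply]
        ring
      rw [Finset.sum_congr rfl fun k _ => hk k]
      simp only [Finsupp.add_apply, Finsupp.neg_apply, Finsupp.smul_apply, smul_eq_mul,
        Finsupp.single_apply, Finset.sum_add_distrib, Finset.sum_sub_distrib, ← Finset.mul_sum]
    rw [hL, R.divOf_apply htrM, hΘ, hJ0, hs0, hsΛ, hsymm]
    rw [hsV] at hVc
    have h1 : (2 * (n : ℤ) ^ 2) * (-∑ k : Fin g, (Loc2.ram (ρ (some k)) c : ℤ) *
          W (cen htrF htrM ρ (some k) c) +
        ∑ k : Fin g, ∑ k' ∈ Finset.univ.filter (fun k' : Fin g => k' < k),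
          coinc htrF htrM ρ (some k) (some k') c) ≤ (2 * (n : ℤ) ^ 2) * c.ord G :=
      mul_le_mul_of_nonneg_left hGc (by positivity)
    have h2 := mul_le_mul_of_nonneg_left hVc hngZ0
    simp only [mult_none, Nat.cast_one, one_mul]
    linarith
  have hdeg := R.degree_mono htrM hle
  rw [R.degree_divOf htrM, map_add, map_sum, Exit.degree_pullback htrF htrM] at hdeg
  have hk : ∀ k : Fin g, Divisor.degree (Divisor.pullbackAlong (ρ (some k))
      (Loc2.algHom_isIntegral htrF htrM (ρ (some k)))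
      (((n : ℤ) ^ 2) • A + (n : ℤ) • B + ((n : ℤ) * ((n : ℤ) * g - 1)) • Finsupp.single Q (1 : ℤ)
        - (2 * (n : ℤ) ^ 2) • W)) =
      (finrankAlong K (ρ (some k)) : ℤ) * ((n : ℤ) ^ 2 * (Divisor.degree A - 2 * g + 4)) := by
    intro k
    rw [Exit.degree_pullback htrF htrM, map_sub, map_add, map_add, map_zsmul, map_zsmul,
      map_zsmul, map_zsmul, Divisor.degree_single, Fermat.Agent.S24.FF.deg_eq_one htrF Q, hB, hW]
    simp only [smul_eq_mul, Nat.cast_one, mul_one]
    ring
  rw [Finset.sum_congr rfl fun k _ => hk k, ← Finset.sum_mul, map_add, map_neg, map_add,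
    map_zsmul, Divisor.degree_single, Fermat.Agent.S24.FF.deg_eq_one htrF Q, hB] at hdeg
  simp only [smul_eq_mul, Nat.cast_one, mul_one] at hdeg
  linarith

end Fermat.Agent.S17.HB.Deg
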