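import Mathlib
import Fermat.Agent.S17.HB.Loc3

/-!
# Program MW (statement S17), strand HB, block DEG, leaf HTAY: iterated derivation and Taylor

`F / K` is the function field of the curve, `T` a place of `F` with uniformiser `t`, `δ` a
derivation of `F` and `η` a multiplier as in `Loc3.ChainRule` at `(T, t)`: `η δ` preserves the
valuation ring of `T` and is `d/dX` on Taylor expansions at `T` (`Loc3.tay`).  Then

* `taylor_iterate` : the iterates of `f ↦ η * δ f` preserve the valuation ring of `T` and the
  Taylor expansion of the `i`-th iterate is `i !` times the `i`-th Hasse derivative of the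
  expansion (`Loc3.tay_iterate`, read for the function `fun f => η * δ f`);
* `eta_mul_eq_one` : `η * δ t = 1` (the expansion of `t` is `X`, the derivative of `X` is `1`,
  and the Taylor map is injective on the valuation ring).
-/

set_option autoImplicit false

open AlgebraicCurve

namespace Fermat.Agent.S17.HB.Deg

open Fermat.Agent.S17 Fermat.Agent.S17.D

variable {K F M : Type*} [Field K] [Field F] [Algebra K F] [Field M] [Algebra K M]
variable [IsAlgClosed K] [CharZero K] [Algebra.EssFiniteType K F]

/-! ### HTAY: iterated derivation and Hasse derivatives of the Taylor expansion -/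

/-- For `η` as in `Loc3.ChainRule` at `(T, t)`: the iterates of `η δ` preserve the valuation ring
of `T` and their Taylor expansions are the Hasse derivatives (times `i !`). -/
theorem taylor_iterate (htr : Algebra.trdeg K F = 1) (T : Place K F) (t : F) (ht : T.ord t = 1)
    (δ : Derivation K F F) (η : F)
    (hη : ∀ f : F, f ∈ T.toValuationSubring → η * δ f ∈ T.toValuationSubring ∧
      Loc3.tay htr T t ht (η * δ f) = PowerSeries.derivative K (Loc3.tay htr T t ht f))
    (f : F) (hf : f ∈ T.toValuationSubring) (i : ℕ) :
    (fun f : F => η * δ f)^[i] f ∈ T.toValuationSubring ∧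
      Loc3.tay htr T t ht ((fun f : F => η * δ f)^[i] f) =
        (i.factorial : K) • hasse i (Loc3.tay htr T t ht f) := by
  have e : (fun f : F => η * δ f) = ⇑(η • δ) := by
    funext f
    rw [Derivation.smul_apply, smul_eq_mul]
  rw [e]
  exact Loc3.tay_iterate htr δ ht hη i f hf

/-- For `η` as in `Loc3.ChainRule` at `(T, t)`: `η * δ t = 1`. -/
theorem eta_mul_eq_one (htr : Algebra.trdeg K F = 1) (T : Place K F) (t : F) (ht : T.ord t = 1)
    (δ : Derivation K F F) (η : F)
    (hη : ∀ f : F, f ∈ T.toValuationSubring → η * δ f ∈ T.toValuationSubring ∧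
      Loc3.tay htr T t ht (η * δ f) = PowerSeries.derivative K (Loc3.tay htr T t ht f)) :
    η * δ t = 1 := by
  have htm : t ∈ T.toValuationSubring := R.Taylor.unif_mem T ht
  obtain ⟨h1, h2⟩ := hη t htm
  rw [Loc3.tay_unif, PowerSeries.derivative_X, ← Loc3.tay_one htr T t ht] at h2
  exact Loc3.tay_injOn htr T t ht h1 (one_mem _) h2

end Fermat.Agent.S17.HB.Deg
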