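import Mathlib
import Fermat.Prelude.Def_AlgebraicCurve_Correspondence
import Fermat.Agent.S24.FF.Principal
import Fermat.Agent.Lib.FFNorm.Along
import Fermat.Agent.S17.HB.Loc2

/-!
# Program MW (statement S17), strand HB, block DEG: the pull-back bridge (leaf PB)

`F / K` and `M / K` function fields of one variable over an algebraically closed field of
characteristic zero, `ρ : F →ₐ[K] M` a `K`-embedding.  For a divisor `D` of `F` the weighted count
of the places `c` of `M` by the value of `D` at the centre of `c` is the degree of the pull-back: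

  `∑_c e(c) * D (centre c) = [M : ρ F] * deg D`                      (`sum_ram_mul`)

the sum running over any finite set `S` of places of `M` which contains every `c` with
`D (centre c) ≠ 0`; that set of places is finite (`finite_centre_support`).  This is the Prelude's
`Divisor.degree_pullbackAlong` read through `Divisor.pullbackAlong_apply` and the fundamental
identity `Lib.FFNorm.fundamentalIdentityAlong`; LOC2's `centre` / `ram` are the Prelude's
`Place.restrictAlong` / `Place.ramificationIndexAlong` by unfolding.

Special cases in the shape of the local counts of block DEG: a point divisor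
(`sum_ram_centre_eq`, `sum_ite_centre_eq`) and an integer multiple of it.
-/

set_option autoImplicit false
set_option linter.unusedSectionVars false
set_option linter.style.haveILetI false

open AlgebraicCurve

namespace Fermat.Agent.S17.HB.Deg.Pullback

open Fermat.Agent.S17.HB

variable {K F M : Type*} [Field K] [Field F] [Field M] [Algebra K F] [Algebra K M]

/-- LOC2's centre is the Prelude's `Place.restrictAlong`. -/
theorem centre_eq_restrictAlong (ρ : F →ₐ[K] M) (hρ : ρ.toRingHom.IsIntegral) (c : Place K M) :
    Loc2.centre ρ hρ c = c.restrictAlong ρ hρ := rfl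

/-- LOC2's ramification index is the Prelude's `Place.ramificationIndexAlong`. -/
theorem ram_eq_ramificationIndexAlong (ρ : F →ₐ[K] M) (c : Place K M) :
    Loc2.ram ρ c = Place.ramificationIndexAlong ρ c := rfl

variable [IsAlgClosed K] [CharZero K] [Algebra.EssFiniteType K M]

/-- The pull-back of a divisor along `ρ`, evaluated at a place of `M`, in LOC2's vocabulary. -/
theorem pullbackAlong_apply' (htrF : Algebra.trdeg K F = 1) (htrM : Algebra.trdeg K M = 1)
    (ρ : F →ₐ[K] M) (D : Divisor K F) (c : Place K M) :
    haveI : HasPrincipalDivisors K M := Lib.FFNorm.hasPrincipalDivisors htrM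
    Divisor.pullbackAlong ρ (Loc2.algHom_isIntegral htrF htrM ρ) D c
      = (Loc2.ram ρ c : ℤ) * D (Loc2.centre ρ (Loc2.algHom_isIntegral htrF htrM ρ) c) := by
  haveI : HasPrincipalDivisors K M := Lib.FFNorm.hasPrincipalDivisors htrM
  exact Divisor.pullbackAlong_apply ρ (Loc2.algHom_isIntegral htrF htrM ρ) D c

/-- Only finitely many places of `M` have their centre in the support of a divisor of `F`. -/
theorem finite_centre_support (htrF : Algebra.trdeg K F = 1) (htrM : Algebra.trdeg K M = 1)
    (ρ : F →ₐ[K] M) (D : Divisor K F) :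
    {c : Place K M | D (Loc2.centre ρ (Loc2.algHom_isIntegral htrF htrM ρ) c) ≠ 0}.Finite := by
  haveI : HasPrincipalDivisors K M := Lib.FFNorm.hasPrincipalDivisors htrM
  refine (Divisor.pullbackAlong ρ (Loc2.algHom_isIntegral htrF htrM ρ) D).support.finite_toSet.subset
    ?_
  intro c hc
  rw [Finset.mem_coe, Finsupp.mem_support_iff, pullbackAlong_apply' htrF htrM ρ D c]
  have hpos : (0 : ℤ) < (Loc2.ram ρ c : ℤ) := by
    exact_mod_cast Loc2.ram_pos ρ (Loc2.algHom_isIntegral htrF htrM ρ) c
  exact mul_ne_zero hpos.ne' hc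

/-- **Leaf PB.** The weighted count of the places of `M` over a divisor `D` of `F`:
`∑_c e(c) * D (centre c) = [M : ρ F] * deg D`, the sum over any finite set containing every place
`c` of `M` with `D (centre c) ≠ 0`. -/
theorem sum_ram_mul (htrF : Algebra.trdeg K F = 1) (htrM : Algebra.trdeg K M = 1)
    (ρ : F →ₐ[K] M) (D : Divisor K F) (S : Finset (Place K M))
    (hS : ∀ c, D (Loc2.centre ρ (Loc2.algHom_isIntegral htrF htrM ρ) c) ≠ 0 → c ∈ S) :
    ∑ c ∈ S, (Loc2.ram ρ c : ℤ) * D (Loc2.centre ρ (Loc2.algHom_isIntegral htrF htrM ρ) c)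
      = (finrankAlong K ρ : ℤ) * Divisor.degree D := by
  haveI : HasPrincipalDivisors K M := Lib.FFNorm.hasPrincipalDivisors htrM
  have hFI : FundamentalIdentityAlong K ρ (Loc2.algHom_isIntegral htrF htrM ρ) :=
    Lib.FFNorm.fundamentalIdentityAlong ρ (Loc2.algHom_isIntegral htrF htrM ρ) htrF htrM
  rw [← Divisor.degree_pullbackAlong ρ (Loc2.algHom_isIntegral htrF htrM ρ) hFI D,
    S24.FF.degree_eq_finsum htrM, finsum_eq_sum_of_support_subset (s := S)]
  · exact Finset.sum_congr rfl fun c _ => (pullbackAlong_apply' htrF htrM ρ D c).symm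
  · intro c hc
    rw [Function.mem_support, pullbackAlong_apply' htrF htrM ρ D c] at hc
    exact Finset.mem_coe.mpr (hS c fun h0 => hc (by rw [h0, mul_zero]))

/-- The same count with the finite set chosen: the sum over all places of `M`. -/
theorem finsum_ram_mul (htrF : Algebra.trdeg K F = 1) (htrM : Algebra.trdeg K M = 1)
    (ρ : F →ₐ[K] M) (D : Divisor K F) :
    ∑ᶠ c : Place K M,
        (Loc2.ram ρ c : ℤ) * D (Loc2.centre ρ (Loc2.algHom_isIntegral htrF htrM ρ) c)
      = (finrankAlong K ρ : ℤ) * Divisor.degree D := by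
  classical
  have hfin := finite_centre_support htrF htrM ρ D
  rw [← sum_ram_mul htrF htrM ρ D hfin.toFinset (fun c hc => hfin.mem_toFinset.mpr hc)]
  refine finsum_eq_sum_of_support_subset _ ?_
  intro c hc
  rw [Function.mem_support] at hc
  exact Finset.mem_coe.mpr (hfin.mem_toFinset.mpr fun h0 => hc (by rw [h0, mul_zero]))

/-- The places of `M` with a given centre form a finite set. -/
theorem finite_centre_eq (htrF : Algebra.trdeg K F = 1) (htrM : Algebra.trdeg K M = 1)
    (ρ : F →ₐ[K] M) (Q : Place K F) :
    {c : Place K M | Loc2.centre ρ (Loc2.algHom_isIntegral htrF htrM ρ) c = Q}.Finite := by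
  classical
  refine (finite_centre_support htrF htrM ρ (Finsupp.single Q (1 : ℤ))).subset ?_
  intro c hc
  rw [Set.mem_ofPred_eq] at hc ⊢
  rw [hc, Finsupp.single_eq_same]
  exact one_ne_zero

open Classical in
/-- Point divisor: the ramification indices of the places of `M` with centre `Q` add up to the
degree `[M : ρ F]`. -/
theorem sum_ite_centre_eq (htrF : Algebra.trdeg K F = 1) (htrM : Algebra.trdeg K M = 1)
    (ρ : F →ₐ[K] M) (Q : Place K F) (S : Finset (Place K M))
    (hS : ∀ c, Loc2.centre ρ (Loc2.algHom_isIntegral htrF htrM ρ) c = Q → c ∈ S) :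
    ∑ c ∈ S, (if Loc2.centre ρ (Loc2.algHom_isIntegral htrF htrM ρ) c = Q
        then (Loc2.ram ρ c : ℤ) else 0) = (finrankAlong K ρ : ℤ) := by
  classical
  have hdeg : Divisor.degree (Finsupp.single Q (1 : ℤ) : Divisor K F) = 1 := by
    rw [Divisor.degree_single, S24.FF.deg_eq_one htrF Q]
    simp
  have h := sum_ram_mul htrF htrM ρ (Finsupp.single Q (1 : ℤ)) S (fun c hc => hS c (by
    by_contra hne
    exact hc (Finsupp.single_eq_of_ne hne)))
  rw [hdeg, mul_one] at h
  rw [← h]
  refine Finset.sum_congr rfl fun c _ => ?_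
  by_cases hcQ : Loc2.centre ρ (Loc2.algHom_isIntegral htrF htrM ρ) c = Q
  · rw [if_pos hcQ, hcQ, Finsupp.single_eq_same, mul_one]
  · rw [if_neg hcQ, Finsupp.single_eq_of_ne hcQ, mul_zero]

end Fermat.Agent.S17.HB.Deg.Pullback
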