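import Mathlib

/-!
# Strand HB, block DEG, leaf SW: the switching lemma

`F` a field over `K`, `δ` a `K`-derivation of `F`, `η h : F`, `ρ : F →ₐ[K] M` a point with values
in a field `M`.  If the `δ`-jets of order `< n` of `∑ c j ⊗ v j` vanish at the point `ρ`, then so
do the `(η δ)`-jets of `∑ c j ⊗ h v j`, and the `n`-th one is `ρ (η ^ n h)` times the `n`-th
`δ`-jet (`switch`).

The proof is the expansion `(η δ)^[i] (h v) = ∑ l ≤ i, coef i l * δ^[l] v` with coefficients
`coef i l ∈ F` that do not depend on `v` and `coef i i = η ^ i * h`.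

Mathlib only.
-/

set_option autoImplicit false

namespace Fermat.Agent.S17.HB.Deg

namespace Switch

variable {K F : Type*} [Field K] [Field F] [Algebra K F]

/-- The coefficients of `(η δ)^[i] (h v) = ∑ l ≤ i, coef i l * δ^[l] v`. -/
noncomputable def coef (δ : Derivation K F F) (η h : F) : ℕ → ℕ → F
  | 0, l => if l = 0 then h else 0
  | i + 1, l => η * δ (coef δ η h i l) + (if l = 0 then 0 else η * coef δ η h i (l - 1))

theorem coef_zero (δ : Derivation K F F) (η h : F) (l : ℕ) :
    coef δ η h 0 l = if l = 0 then h else 0 := rfl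

theorem coef_succ (δ : Derivation K F F) (η h : F) (i l : ℕ) :
    coef δ η h (i + 1) l =
      η * δ (coef δ η h i l) + (if l = 0 then 0 else η * coef δ η h i (l - 1)) := rfl

/-- `coef i l = 0` for `l > i`. -/
theorem coef_eq_zero_of_lt (δ : Derivation K F F) (η h : F) :
    ∀ (i l : ℕ), i < l → coef δ η h i l = 0 := by
  intro i
  induction i with
  | zero =>
    intro l hl
    rw [coef_zero, if_neg (by omega)]
  | succ i ih =>
    intro l hl
    rw [coef_succ, ih l (by omega), map_zero, mul_zero, zero_add, if_neg (by omega),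
      ih (l - 1) (by omega), mul_zero]

/-- The top coefficient: `coef i i = η ^ i * h`. -/
theorem coef_self (δ : Derivation K F F) (η h : F) : ∀ i : ℕ, coef δ η h i i = η ^ i * h := by
  intro i
  induction i with
  | zero => rw [coef_zero, if_pos rfl, pow_zero, one_mul]
  | succ i ih =>
    rw [coef_succ, coef_eq_zero_of_lt δ η h i (i + 1) (Nat.lt_succ_self i), map_zero, mul_zero,
      zero_add, if_neg (Nat.succ_ne_zero i), Nat.add_sub_cancel, ih, pow_succ]
    ring

/-- The expansion of the iterates of `η δ` on `h v` in the iterates of `δ` on `v`. -/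
theorem iterate_mul_eq_sum (δ : Derivation K F F) (η h : F) (v : F) :
    ∀ i : ℕ, (fun f : F => η * δ f)^[i] (h * v) =
      ∑ l ∈ Finset.range (i + 1), coef δ η h i l * (⇑δ)^[l] v := by
  intro i
  induction i with
  | zero =>
    rw [Function.iterate_zero, id, Finset.sum_range_one, coef_zero, if_pos rfl,
      Function.iterate_zero, id]
  | succ i ih =>
    rw [Function.iterate_succ_apply', ih, map_sum, Finset.mul_sum]
    have h1 : ∀ l ∈ Finset.range (i + 1),
        η * δ (coef δ η h i l * (⇑δ)^[l] v) =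
          η * δ (coef δ η h i l) * (⇑δ)^[l] v + η * coef δ η h i l * (⇑δ)^[l + 1] v := by
      intro l _
      rw [Derivation.leibniz, smul_eq_mul, smul_eq_mul, Function.iterate_succ_apply']
      ring
    rw [Finset.sum_congr rfl h1, Finset.sum_add_distrib]
    have h2 : ∀ l ∈ Finset.range (i + 1 + 1), coef δ η h (i + 1) l * (⇑δ)^[l] v =
        η * δ (coef δ η h i l) * (⇑δ)^[l] v +
          (if l = 0 then 0 else η * coef δ η h i (l - 1)) * (⇑δ)^[l] v := by
      intro l _
      rw [coef_succ, add_mul]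
    rw [Finset.sum_congr rfl h2, Finset.sum_add_distrib]
    congr 1
    · rw [Finset.sum_range_succ (fun l => η * δ (coef δ η h i l) * (⇑δ)^[l] v) (i + 1),
        coef_eq_zero_of_lt δ η h i (i + 1) (Nat.lt_succ_self i), map_zero, mul_zero, zero_mul,
        add_zero]
    · rw [Finset.sum_range_succ'
        (fun l => (if l = 0 then 0 else η * coef δ η h i (l - 1)) * (⇑δ)^[l] v) (i + 1),
        if_pos rfl, zero_mul, add_zero]
      refine Finset.sum_congr rfl fun l _ => ?_
      rw [if_neg (Nat.succ_ne_zero l), Nat.add_sub_cancel]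

/-- The jets of `∑ c j ⊗ h v j` for `η δ` in terms of the jets of `∑ c j ⊗ v j` for `δ`. -/
theorem sum_jet_eq {M : Type*} [Field M] [Algebra K M] (ρ : F →ₐ[K] M) (δ : Derivation K F F)
    (η h : F) {ι : Type*} [Fintype ι] (c : ι → M) (v : ι → F) (i : ℕ) :
    ∑ j, c j * ρ ((fun f : F => η * δ f)^[i] (h * v j)) =
      ∑ l ∈ Finset.range (i + 1), ρ (coef δ η h i l) * ∑ j, c j * ρ ((⇑δ)^[l] (v j)) := by
  have h1 : ∀ j, c j * ρ ((fun f : F => η * δ f)^[i] (h * v j)) =
      ∑ l ∈ Finset.range (i + 1), ρ (coef δ η h i l) * (c j * ρ ((⇑δ)^[l] (v j))) := by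
    intro j
    rw [iterate_mul_eq_sum, map_sum, Finset.mul_sum]
    refine Finset.sum_congr rfl fun l _ => ?_
    rw [map_mul]
    ring
  rw [Finset.sum_congr rfl fun j _ => h1 j, Finset.sum_comm]
  refine Finset.sum_congr rfl fun l _ => ?_
  rw [Finset.mul_sum]

end Switch

/-- If the `δ`-jets of order `< n` of `∑ c j ⊗ v j` vanish at the point `ρ`, then so do the
`(η δ)`-jets of `∑ c j ⊗ h v j`, and the `n`-th one is `ρ (η ^ n h)` times the `n`-th `δ`-jet. -/
theorem switch {K F M : Type*} [Field K] [Field F] [Field M] [Algebra K F] [Algebra K M]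
    (ρ : F →ₐ[K] M) (δ : Derivation K F F) (η h : F) {ι : Type*} [Fintype ι]
    (c : ι → M) (v : ι → F) (n : ℕ)
    (hvan : ∀ i < n, ∑ j, c j * ρ ((⇑δ)^[i] (v j)) = 0) :
    (∀ i < n, ∑ j, c j * ρ ((fun f : F => η * δ f)^[i] (h * v j)) = 0) ∧
      ∑ j, c j * ρ ((fun f : F => η * δ f)^[n] (h * v j)) =
        ρ (η ^ n * h) * ∑ j, c j * ρ ((⇑δ)^[n] (v j)) := by
  constructor
  · intro i hi
    rw [Switch.sum_jet_eq]
    refine Finset.sum_eq_zero fun l hl => ?_
    rw [hvan l (lt_of_le_of_lt (Nat.lt_succ_iff.mp (Finset.mem_range.mp hl)) hi), mul_zero]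
  · rw [Switch.sum_jet_eq, Finset.sum_range_succ, Switch.coef_self]
    have h0 : ∑ l ∈ Finset.range n,
        ρ (Switch.coef δ η h n l) * ∑ j, c j * ρ ((⇑δ)^[l] (v j)) = 0 := by
      refine Finset.sum_eq_zero fun l hl => ?_
      rw [hvan l (Finset.mem_range.mp hl), mul_zero]
    rw [h0, zero_add]

end Fermat.Agent.S17.HB.Deg
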